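import Mathlib
import Fermat.Agent.LT.T7.H816.IotaSpec

/-!
# Row LT, tower T7, leaf T7.L2.1.C2.4-I.9 `H816.ClosedC816` (registry row 2476) -- helper127

OFF-MAIN.  Complete proof, nothing assumed.

`closedC127 K K' : H816.ClosedC816 K K'` VERBATIM vs `LT/T7/H816/IotaSpec.lean`
(helper816@e81f893cb, sha256 c16fad08c5fc320c).

Proof: `ι` is injective (every place of `K` has a place of `K'` over it and the local maps are
homomorphisms of fields); its range is the set of the fixed points of `σ_𝔸`, a closed subgroup
of the locally compact Hausdorff group `𝔸_{K'}`, hence a Baire space; `𝔸_K` is σ-compact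
(locally compact, second countable): open mapping theorem
`AddMonoidHom.isOpenMap_of_sigmaCompact`.
-/

set_option autoImplicit false
set_option linter.style.haveILetI false
set_option linter.unusedSectionVars false

open AutomorphicForm IsDedekindDomain NumberField MeasureTheory
open scoped ComplexConjugate

noncomputable section

namespace Fermat.Agent.LT.T7.H127

open Fermat.Agent.LT.H556 Fermat.Agent.LT.H556.A0 Fermat.Agent.LT.T7
open Fermat.Agent.LT.T7.H305 Fermat.Agent.LT.T7.H816

variable {K K' : Type} [Field K] [NumberField K] [Field K'] [NumberField K'] [Algebra K K']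

/-- Every finite place of `K` has a finite place of `K'` over it. -/
theorem exists_placeOver127 (v : HeightOneSpectrum (𝓞 K)) :
    ∃ w : HeightOneSpectrum (𝓞 K'), PlaceOver K K' v w := by
  have : v.asIdeal.IsPrime := v.isPrime
  have hinj : Function.Injective (algebraMap (𝓞 K) (𝓞 K')) :=
    FaithfulSMul.algebraMap_injective (𝓞 K) (𝓞 K')
  obtain ⟨Q, -, hQp, hQ⟩ := Ideal.exists_ideal_over_prime_of_isIntegral v.asIdeal
    (⊥ : Ideal (𝓞 K')) (by
      rw [← RingHom.ker_eq_comap_bot, (RingHom.injective_iff_ker_eq_bot _).1 hinj]
      exact bot_le)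
  have hQne : Q ≠ ⊥ := by
    rintro rfl
    apply v.ne_bot
    rw [← hQ, ← RingHom.ker_eq_comap_bot, (RingHom.injective_iff_ker_eq_bot _).1 hinj]
  refine ⟨⟨Q, hQp, hQne⟩, fun x y hxy => ?_⟩
  have hy : y = algebraMap (𝓞 K) (𝓞 K') x := by
    apply NumberField.RingOfIntegers.ext
    rw [hxy]
    rfl
  show x ∈ v.asIdeal ↔ y ∈ Q
  rw [← hQ, Ideal.mem_comap, hy]

/-- `ι` is injective. -/
theorem injective_of_preBase127 {ι : Adl K →+* Adl K'} (hι : IsPreBase816 ι) :
    Function.Injective ι := by
  rw [injective_iff_map_eq_zero]
  intro x hx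
  have hinf : ∀ v : InfinitePlace K, x.1 v = 0 := by
    intro v
    obtain ⟨w', hw'⟩ := InfinitePlace.comap_surjective (K := K') v
    have h0 : T5.infHom w' (ι x) = 0 := by rw [hx, map_zero]
    have h1 : T5.infHom (w'.comap (algebraMap K K')) x = 0 := by
      rcases hι.inf w' with h | h
      · rw [← h x]; exact h0
      · have := h x
        rw [h0] at this
        have h2 := congrArg conj this
        simpa using h2.symm
    have hw'' : w'.comap (algebraMap K K') = v := hw'
    rw [hw''] at h1
    have h3 : InfinitePlace.Completion.extensionEmbedding v (x.1 v) = 0 := h1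
    exact (map_eq_zero _).1 h3
  have hfin : ∀ v : HeightOneSpectrum (𝓞 K), x.2 v = 0 := by
    intro v
    obtain ⟨w, hw⟩ := exists_placeOver127 (K' := K') v
    obtain ⟨e, i, -, -, -, hi⟩ := hι.fin v w hw
    have h0 : T5.finHom w (ι x) = 0 := by rw [hx, map_zero]
    have h1 : i (T5.finHom v x) = 0 := by rw [← hi x]; exact h0
    have h2 : T5.finHom v x = 0 := (map_eq_zero i).1 h1
    exact h2
  refine Prod.ext ?_ ?_
  · funext v
    exact hinf v
  · exact RestrictedProduct.ext _ _ fun v => hfin v

/-- **LEAF T7.L2.1.C2.4-I.9 = CLOSED**, VERBATIM. -/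
theorem closedC127 (K K' : Type) [Field K] [NumberField K] [Field K'] [NumberField K']
    [Algebra K K'] : ClosedC816 K K' := by
  intro D hD ι hι hfix honto hK hK'
  haveI : LocallyCompactSpace (Adl K) := hK.1.1
  haveI : T2Space (Adl K) := hK.1.2.1
  haveI : SecondCountableTopology (Adl K) := hK.1.2.2
  haveI : LocallyCompactSpace (Adl K') := hK'.1.1
  haveI : T2Space (Adl K') := hK'.1.2.1
  have hinj : Function.Injective ι := injective_of_preBase127 hι
  -- the range is the closed set of the fixed points
  have hrange : Set.range ι = {y : Adl K' | D.s.σA y = y} := by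
    ext y
    constructor
    · rintro ⟨x, rfl⟩
      exact hfix x
    · intro hy
      exact honto y hy
  have hclosed : IsClosed (Set.range ι) := by
    rw [hrange]
    exact isClosed_eq D.s.continuous_σA continuous_id
  -- the open mapping theorem
  let f : Adl K →+ (ι.toAddMonoidHom.range) := ι.toAddMonoidHom.rangeRestrict
  have hcoe : ((ι.toAddMonoidHom.range : AddSubgroup (Adl K')) : Set (Adl K')) = Set.range ι := by
    ext y
    simp
  have hclosed' : IsClosed ((ι.toAddMonoidHom.range : AddSubgroup (Adl K')) : Set (Adl K')) := by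
    rw [hcoe]; exact hclosed
  haveI : LocallyCompactSpace (ι.toAddMonoidHom.range) := hclosed'.locallyCompactSpace
  have hfc : Continuous f := hι.cont.subtype_mk _
  have hfs : Function.Surjective f := ι.toAddMonoidHom.rangeRestrict_surjective
  have hfo : IsOpenMap f := AddMonoidHom.isOpenMap_of_sigmaCompact f hfs hfc
  have hfi : Function.Injective f := by
    intro a b hab
    apply hinj
    have := congrArg Subtype.val hab
    exact this
  have hfe : Topology.IsEmbedding f :=
    (Topology.IsOpenEmbedding.of_continuous_injective_isOpenMap hfc hfi hfo).isEmbedding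
  have hιe : Topology.IsEmbedding ι := by
    have : (ι : Adl K → Adl K') = Subtype.val ∘ f := rfl
    rw [this]
    exact Topology.IsEmbedding.subtypeVal.comp hfe
  exact ⟨hιe, hclosed⟩

end Fermat.Agent.LT.T7.H127

end
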